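import Mathlib

set_option autoImplicit false

namespace Fermat.Agent.Lib.Eigen

variable {V : Type*} [AddCommGroup V] [Module ℂ V] [FiniteDimensional ℂ V]

/-- A commuting multiplicative family `T` of endomorphisms and a "prime" subset `𝔪`:
there is a simultaneous eigenvector whose annihilator in `T` lies in `𝔪`. -/
theorem exists_eigenvector_aux (T 𝔪 : Set (Module.End ℂ V))
    (hone : (1 : Module.End ℂ V) ∈ T) (hmul : ∀ s ∈ T, ∀ t ∈ T, s * t ∈ T)
    (hcomm : ∀ s ∈ T, ∀ t ∈ T, Commute s t)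
    (h1 : (1 : Module.End ℂ V) ∉ 𝔪)
    (hprime : ∀ s ∈ T, ∀ t ∈ T, s * t ∈ 𝔪 → s ∈ 𝔪 ∨ t ∈ 𝔪) :
    ∀ (n : ℕ) (W : Submodule ℂ V), Module.finrank ℂ W = n →
      (∀ t ∈ T, ∀ w ∈ W, t w ∈ W) → (∀ t ∈ T, (∀ w ∈ W, t w = 0) → t ∈ 𝔪) →
      ∃ f ∈ W, f ≠ 0 ∧ (∀ t ∈ T, ∃ μ : ℂ, t f = μ • f) ∧ (∀ t ∈ T, t f = 0 → t ∈ 𝔪) := by
  intro n
  induction n using Nat.strong_induction_on with
  | _ n ih =>
    intro W hW hstab hann
    have hWne : W ≠ ⊥ := by
      rintro rfl
      exact h1 (hann 1 hone (by simp))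
    by_cases hA : ∀ t ∈ T, ∃ μ : ℂ, ∀ w ∈ W, t w = μ • w
    · obtain ⟨f, hfW, hf0⟩ := Submodule.exists_mem_ne_zero_of_ne_bot hWne
      refine ⟨f, hfW, hf0, fun t ht => ?_, fun t ht htf => ?_⟩
      · obtain ⟨μ, hμ⟩ := hA t ht
        exact ⟨μ, hμ f hfW⟩
      · obtain ⟨μ, hμ⟩ := hA t ht
        have : μ = 0 := by
          have h2 := hμ f hfW
          rw [htf] at h2
          exact (smul_eq_zero.mp h2.symm).resolve_right hf0
        refine hann t ht fun w hw => ?_
        rw [hμ w hw, this, zero_smul]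
    · push Not at hA
      obtain ⟨t, ht, hts⟩ := hA
      have : Nontrivial W := Submodule.nontrivial_iff_ne_bot.mpr hWne
      obtain ⟨μ, hμ⟩ := Module.End.exists_eigenvalue (t.restrict (hstab t ht))
      obtain ⟨v, hv⟩ := hμ.exists_hasEigenvector
      have hv1 : t (v : V) = μ • (v : V) := by
        have := hv.apply_eq_smul
        simpa using congrArg Subtype.val this
      have hv0 : (v : V) ≠ 0 := by
        intro h
        exact hv.2 (Subtype.ext h)
      set u : Module.End ℂ V := t - μ • 1 with hu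
      have hu_apply : ∀ w, u w = t w - μ • w := by intro w; simp [hu]
      have hcu : ∀ s ∈ T, ∀ w, u (s w) = s (u w) := by
        intro s hs w
        have := (hcomm t ht s hs)
        have h2 : t (s w) = s (t w) := by
          simpa using congrArg (fun g : Module.End ℂ V => g w) this.eq
        rw [hu_apply, hu_apply, h2, map_sub, map_smul]
      have huW : ∀ w ∈ W, u w ∈ W := by
        intro w hw
        rw [hu_apply]
        exact W.sub_mem (hstab t ht w hw) (W.smul_mem μ hw)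
      set W' : Submodule ℂ V := W ⊓ LinearMap.ker u with hW'
      set W'' : Submodule ℂ V := W.map u with hW''
      have hlt' : Module.finrank ℂ W' < n := by
        rw [← hW]
        apply Submodule.finrank_lt_finrank_of_lt
        refine lt_of_le_of_ne inf_le_left ?_
        intro heq
        obtain ⟨w, hw, hne⟩ := hts μ
        have : w ∈ W' := heq ▸ hw
        have h3 : u w = 0 := this.2
        rw [hu_apply, sub_eq_zero] at h3
        exact hne h3
      have hlt'' : Module.finrank ℂ W'' < n := by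
        have h4 := LinearMap.finrank_range_add_finrank_ker (u.domRestrict W)
        rw [LinearMap.range_domRestrict, hW] at h4
        have h5 : 0 < Module.finrank ℂ (LinearMap.ker (u.domRestrict W)) := by
          rw [Module.finrank_pos_iff_exists_ne_zero]
          refine ⟨⟨v, ?_⟩, ?_⟩
          · rw [LinearMap.mem_ker, LinearMap.domRestrict_apply, hu_apply, hv1, sub_self]
          · intro h
            apply hv.2
            simpa using congrArg Subtype.val h
        rw [hW'']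
        omega
      have hstab' : ∀ s ∈ T, ∀ w ∈ W', s w ∈ W' := by
        intro s hs w hw
        refine ⟨hstab s hs w hw.1, ?_⟩
        show u (s w) = 0
        rw [hcu s hs, LinearMap.mem_ker.mp hw.2, map_zero]
      have hstab'' : ∀ s ∈ T, ∀ w ∈ W'', s w ∈ W'' := by
        intro s hs w hw
        obtain ⟨x, hx, rfl⟩ := hw
        exact ⟨s x, hstab s hs x hx, hcu s hs x⟩
      have hor : (∀ s ∈ T, (∀ w ∈ W', s w = 0) → s ∈ 𝔪) ∨
          (∀ s ∈ T, (∀ w ∈ W'', s w = 0) → s ∈ 𝔪) := by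
        by_contra hcon
        push Not at hcon
        obtain ⟨⟨x, hx, hxk, hxm⟩, ⟨y, hy, hyk, hym⟩⟩ := hcon
        have hxy : x * y ∈ 𝔪 := by
          refine hann _ (hmul x hx y hy) fun w hw => ?_
          rw [Module.End.mul_apply]
          apply hxk
          refine ⟨hstab y hy w hw, ?_⟩
          show u (y w) = 0
          rw [hcu y hy]
          exact hyk _ ⟨w, hw, rfl⟩
        rcases hprime x hx y hy hxy with h | h
        · exact hxm h
        · exact hym h
      rcases hor with h | h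
      · obtain ⟨f, hf, rest⟩ := ih _ hlt' W' rfl hstab' h
        exact ⟨f, hf.1, rest⟩
      · obtain ⟨f, hf, rest⟩ := ih _ hlt'' W'' rfl hstab'' h
        obtain ⟨x, hx, rfl⟩ := hf
        exact ⟨u x, huW x hx, rest⟩

theorem exists_eigenvector (T 𝔪 : Set (Module.End ℂ V))
    (hone : (1 : Module.End ℂ V) ∈ T) (hmul : ∀ s ∈ T, ∀ t ∈ T, s * t ∈ T)
    (hcomm : ∀ s ∈ T, ∀ t ∈ T, Commute s t)
    (h1 : (1 : Module.End ℂ V) ∉ 𝔪) (h0 : (0 : Module.End ℂ V) ∈ 𝔪)
    (hprime : ∀ s ∈ T, ∀ t ∈ T, s * t ∈ 𝔪 → s ∈ 𝔪 ∨ t ∈ 𝔪) :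
    ∃ f : V, f ≠ 0 ∧ (∀ t ∈ T, ∃ μ : ℂ, t f = μ • f) ∧ (∀ t ∈ T, t f = 0 → t ∈ 𝔪) := by
  obtain ⟨f, -, h⟩ := exists_eigenvector_aux T 𝔪 hone hmul hcomm h1 hprime _ ⊤ rfl
    (fun _ _ _ _ => Submodule.mem_top) (fun t _ ht => by
      have : t = 0 := LinearMap.ext fun w => by simpa using ht w Submodule.mem_top
      rw [this]; exact h0)
  exact ⟨f, h⟩

end Fermat.Agent.Lib.Eigen
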