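import Mathlib
import Fermat.Prelude.Def_FormalHecke_Eigensystem

set_option autoImplicit false

namespace Fermat.Agent.Lib.FormalHecke

open _root_.FormalHecke

variable {R : Type*} [CommRing R] {e a : ℕ → R}

theorem prime_pow_succ_succ (h : IsEigensystem e a) {ℓ : ℕ} (hℓ : ℓ.Prime) (r : ℕ) :
    a (ℓ ^ (r + 2)) = a ℓ * a (ℓ ^ (r + 1)) - e ℓ * a (ℓ ^ r) := by
  have := h.2 ℓ hℓ (ℓ ^ (r + 1))
  have hq : ℓ ^ (r + 1) / ℓ = ℓ ^ r := by
    rw [pow_succ, Nat.mul_div_cancel _ hℓ.pos]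
  rw [if_pos (dvd_pow_self ℓ (Nat.succ_ne_zero r)), hq, ← pow_succ'] at this
  rw [← this]; ring

theorem prime_pow_mul (h : IsEigensystem e a) {ℓ : ℕ} (hℓ : ℓ.Prime) (n : ℕ) (hn : ¬ ℓ ∣ n) :
    ∀ r : ℕ, a (ℓ ^ r * n) = a (ℓ ^ r) * a n ∧ a (ℓ ^ (r + 1) * n) = a (ℓ ^ (r + 1)) * a n := by
  intro r
  induction r with
  | zero =>
    refine ⟨by simp [h.1], ?_⟩
    have := h.2 ℓ hℓ n
    rw [if_neg hn, mul_zero, add_zero] at this
    simpa using this
  | succ r ih =>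
    refine ⟨ih.2, ?_⟩
    have h1 := h.2 ℓ hℓ (ℓ ^ (r + 1) * n)
    have hd : ℓ ∣ ℓ ^ (r + 1) * n := Dvd.dvd.mul_right (dvd_pow_self ℓ (Nat.succ_ne_zero r)) n
    have hq : ℓ ^ (r + 1) * n / ℓ = ℓ ^ r * n := by
      rw [pow_succ', mul_assoc, Nat.mul_div_cancel_left _ hℓ.pos]
    rw [if_pos hd, hq, ← mul_assoc, ← pow_succ', ih.1, ih.2] at h1
    rw [prime_pow_succ_succ h hℓ r]
    linear_combination h1

theorem mul_of_coprime (h : IsEigensystem e a) (m : ℕ) :
    ∀ n : ℕ, m.Coprime n → a (m * n) = a m * a n := by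
  induction m using Nat.recOnPrimeCoprime with
  | zero =>
    intro n hn
    have : n = 1 := by simpa using hn
    subst this
    simp [h.1]
  | prime_pow p r hp =>
    intro n hn
    rcases Nat.eq_zero_or_pos r with rfl | hr
    · simp [h.1]
    · have hpn : ¬ p ∣ n := by
        intro hd
        have : p ∣ Nat.gcd (p ^ r) n := Nat.dvd_gcd (dvd_pow_self p hr.ne') hd
        rw [hn] at this
        exact hp.one_lt.ne' (Nat.dvd_one.mp this)
      exact (prime_pow_mul h hp n hpn r).1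
  | coprime m₁ m₂ _ _ hc ih₁ ih₂ =>
    intro n hn
    have h1 : m₁.Coprime n := Nat.Coprime.coprime_mul_right hn
    have h2 : m₂.Coprime n := Nat.Coprime.coprime_mul_left hn
    rw [mul_assoc, ih₁ (m₂ * n) (Nat.Coprime.mul_right hc h1), ih₂ n h2, ih₁ m₂ hc, mul_assoc]

theorem isRecursive (h : IsEigensystem e a) : IsRecursive e a :=
  ⟨h.1, fun m n hmn => mul_of_coprime h m n hmn, fun _ r hℓ => prime_pow_succ_succ h hℓ r⟩

/-- If the relations hold with eigenvalues `c` and `a 0 = a 1 = 0`, the sequence vanishes. -/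
theorem eq_zero_of_relations (h0 : a 0 = 0) (h1 : a 1 = 0)
    (h : ∀ ℓ : ℕ, ℓ.Prime → ∃ c : R, ∀ n : ℕ,
      a (ℓ * n) + e ℓ * (if ℓ ∣ n then a (n / ℓ) else 0) = c * a n) : ∀ n, a n = 0 := by
  intro n
  induction n using Nat.strong_induction_on with
  | _ n ih =>
    rcases Nat.lt_or_ge n 2 with hn | hn
    · interval_cases n
      · exact h0
      · exact h1
    · obtain ⟨ℓ, hℓ, m, rfl⟩ : ∃ ℓ : ℕ, ℓ.Prime ∧ ∃ m, n = ℓ * m := by
        obtain ⟨ℓ, hℓ, hd⟩ := Nat.exists_prime_and_dvd (show n ≠ 1 by omega)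
        exact ⟨ℓ, hℓ, hd⟩
      have hm0 : 0 < m := by
        rcases Nat.eq_zero_or_pos m with rfl | hm
        · simp at hn
        · exact hm
      have hlt : m < ℓ * m := by
        have := hℓ.one_lt
        nlinarith
      obtain ⟨c, hc⟩ := h ℓ hℓ
      have hrel := hc m
      rw [ih m hlt, mul_zero] at hrel
      have : (if ℓ ∣ m then a (m / ℓ) else 0) = 0 := by
        split_ifs with hd
        · exact ih _ (lt_of_le_of_lt (Nat.div_le_self m ℓ) hlt)
        · rfl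
      rw [this, mul_zero, add_zero] at hrel
      exact hrel

end Fermat.Agent.Lib.FormalHecke
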