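import Mathlib
import Fermat.Prelude.Def_EllipticCurve_FrobeniusTrace

set_option autoImplicit false
set_option linter.style.haveILetI false

namespace Fermat.Agent.Lib.Frobenius

open Polynomial
open scoped Pointwise

local notation "Qb" => AlgebraicClosure ℚ
local notation "Zb" => integralClosure ℤ (AlgebraicClosure ℚ)
local notation "GQ" => (AlgebraicClosure ℚ ≃ₐ[ℚ] AlgebraicClosure ℚ)

instance instIsAlgebraicQbar : Algebra.IsAlgebraic ℚ Qb := AlgebraicClosure.isAlgebraic ℚ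
instance instIsAlgClosureQbar : IsAlgClosure ℚ Qb := ⟨inferInstance, inferInstance⟩
instance instIsGaloisQbar : IsGalois ℚ Qb := IsAlgClosure.isGalois ℚ Qb

lemma seidenberg {R K : Type*} [CommRing R] [Field K] [Algebra R K]
    (hcl : ∀ x : K, IsIntegral R x → ∃ r, algebraMap R K r = x) (Q : Ideal R)
    (x : K) (f : R[X]) (hf : aeval x f = 0) (n : ℕ) (hn : f.coeff n ∉ Q) :
    ∃ s, s ∉ Q ∧ ∃ b, (algebraMap R K s * x = algebraMap R K b) ∨
      (algebraMap R K s = algebraMap R K b * x) := by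
  induction hm : f.natDegree using Nat.strong_induction_on generalizing f n with | h m IH =>
  obtain (_ | m) := m
  · obtain ⟨r, rfl⟩ := natDegree_eq_zero.mp hm
    have hr : algebraMap R K r = 0 := by simpa using hf
    have hn' : r ∉ Q := by
      rcases n with _ | n
      · simpa using hn
      · simp at hn
    exact ⟨r, hn', 0, Or.inl (by rw [hr]; simp)⟩
  obtain ⟨a, ha⟩ := hcl _ (isIntegral_leadingCoeff_smul f x hf)
  by_cases Hfp : f.leadingCoeff ∈ Q
  · by_cases haQ : a ∈ Q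
    · refine IH _ ?_ (f.eraseLead + C a * X ^ m) ?_ n ?_ rfl
      · suffices f.eraseLead.natDegree ≤ m by compute_degree!
        exact (eraseLead_natDegree_le ..).trans (by lia)
      · simp [← self_sub_monomial_natDegree_leadingCoeff, hf, hm, pow_succ', ← Algebra.smul_def,
          ← Algebra.smul_mul_assoc, ha]
      · suffices f.coeff n + (if n = m then a else 0) ∉ Q by
          simpa [eraseLead_coeff, show n ≠ f.natDegree by rintro rfl; exact hn (by simpa)]
        rwa [Ideal.add_mem_iff_left]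
        split_ifs
        · exact haQ
        · simp
    · exact ⟨a, haQ, f.leadingCoeff, Or.inr (by rw [ha, Algebra.smul_def])⟩
  · exact ⟨f.leadingCoeff, Hfp, a, Or.inl (by rw [ha, Algebra.smul_def])⟩

lemma isInvariant : Algebra.IsInvariant ℤ Zb GQ := by
  refine ⟨fun b hb => ?_⟩
  have h1 : (b : Qb) ∈ IntermediateField.fixedField (⊤ : Subgroup GQ) := by
    rintro ⟨g, -⟩
    exact congrArg Subtype.val (hb g)
  rw [InfiniteGalois.fixedField_bot, IntermediateField.mem_bot] at h1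
  obtain ⟨q, hq⟩ := h1
  have h2 : IsIntegral ℤ q := by
    have : IsIntegral ℤ (algebraMap ℚ Qb q) := hq ▸ b.2
    exact (isIntegral_algebraMap_iff (algebraMap ℚ Qb).injective).mp this
  obtain ⟨a, ha⟩ := IsIntegrallyClosed.isIntegral_iff.mp h2
  refine ⟨a, Subtype.ext ?_⟩
  rw [← hq, ← ha]
  simp

lemma exists_frob_ideal (ℓ : ℕ) (hℓ : ℓ.Prime) (Q : Ideal Zb) [hQp : Q.IsPrime] (hQ : (ℓ : Zb) ∈ Q) :
    ∃ σ : GQ, σ • Q = Q ∧ ∀ b : Zb, σ • b - b ^ ℓ ∈ Q := by
  haveI := isInvariant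
  letI : TopologicalSpace Zb := ⊥
  haveI : DiscreteTopology Zb := ⟨rfl⟩
  haveI : ContinuousSMul GQ Zb := by
    rw [continuousSMul_iff_stabilizer_isOpen]
    intro x
    have h := stabilizer_isOpen_of_isIntegral (K := ℚ) (L := Qb) (x : Qb)
    convert h using 2
    ext g
    simp only [MulAction.mem_stabilizer_iff]
    exact Subtype.ext_iff
  let P : Ideal ℤ := Ideal.span {(ℓ : ℤ)}
  have hPmax : P.IsMaximal :=
    PrincipalIdealRing.isMaximal_of_irreducible (Nat.prime_iff_prime_int.mp hℓ).irreducible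
  haveI : Q.LiesOver P := ⟨by
    refine hPmax.eq_of_le (Ideal.comap_ne_top _ hQp.ne_top) ?_
    rw [Ideal.span_singleton_le_iff_mem, Ideal.mem_comap]
    simpa using hQ⟩
  haveI : CharP (Zb ⧸ Q) ℓ := by
    rw [CharP.charP_iff_prime_eq_zero hℓ]
    rw [← map_natCast (Ideal.Quotient.mk Q), Ideal.Quotient.eq_zero_iff_mem]
    exact hQ
  haveI : Fact ℓ.Prime := ⟨hℓ⟩
  let F : (Zb ⧸ Q) →ₐ[ℤ ⧸ P] (Zb ⧸ Q) :=
    { frobenius (Zb ⧸ Q) ℓ with
      commutes' := fun a => by
        obtain ⟨n, rfl⟩ := Ideal.Quotient.mk_surjective a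
        have : algebraMap (ℤ ⧸ P) (Zb ⧸ Q) (Ideal.Quotient.mk P n) = ((n : ℤ) : Zb ⧸ Q) := by
          have h0 : Ideal.Quotient.mk P n = ((n : ℤ) : ℤ ⧸ P) := by simp
          rw [h0, map_intCast]
        simp only [RingHom.toMonoidHom_eq_coe, OneHom.toFun_eq_coe, MonoidHom.toOneHom_coe,
          MonoidHom.coe_coe]
        rw [this, map_intCast] }
  have hFbij : Function.Bijective F := by
    constructor
    · exact frobenius_inj (Zb ⧸ Q) ℓ
    · intro y
      obtain ⟨b, rfl⟩ := Ideal.Quotient.mk_surjective y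
      obtain ⟨z, hz⟩ := IsAlgClosed.exists_pow_nat_eq (b : Qb) hℓ.pos
      have hzint : IsIntegral ℤ z := IsIntegral.of_pow hℓ.pos (hz ▸ b.2)
      refine ⟨Ideal.Quotient.mk Q ⟨z, hzint⟩, ?_⟩
      show (Ideal.Quotient.mk Q ⟨z, hzint⟩) ^ ℓ = _
      rw [← map_pow]
      congr 1
      exact Subtype.ext hz
  obtain ⟨⟨σ, hσ⟩, hσF⟩ := Ideal.Quotient.stabilizerHom_surjective_of_profinite (G := GQ) P Q
    (AlgEquiv.ofBijective F hFbij)
  refine ⟨σ, hσ, fun b => ?_⟩
  have h := DFunLike.congr_fun hσF (Ideal.Quotient.mk Q b)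
  rw [Ideal.Quotient.stabilizerHom_apply] at h
  rw [← Ideal.Quotient.eq_zero_iff_mem, map_sub, map_pow, sub_eq_zero]
  exact h

lemma mem_of_isIntegral (A : ValuationSubring Qb) (x : Qb) (hx : IsIntegral ℤ x) : x ∈ A := by
  have h1 : IsIntegral A x := hx.tower_top
  obtain ⟨y, hy⟩ := (IsIntegrallyClosed.isIntegral_iff (R := A) (K := Qb)).mp h1
  rw [← hy]
  exact y.2

/-- inclusion of the ring of algebraic integers in a valuation subring -/
noncomputable def incl (A : ValuationSubring Qb) : Zb →+* A where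
  toFun b := ⟨b, mem_of_isIntegral A b b.2⟩
  map_one' := rfl
  map_mul' _ _ := rfl
  map_zero' := rfl
  map_add' _ _ := rfl

noncomputable def center (A : ValuationSubring Qb) : Ideal Zb := (IsLocalRing.maximalIdeal A).comap (incl A)

instance (A : ValuationSubring Qb) : (center A).IsPrime := Ideal.comap_isPrime _ _

lemma mem_center_iff (A : ValuationSubring Qb) (b : Zb) : b ∈ center A ↔ A.valuation (b : Qb) < 1 := by
  rw [center, Ideal.mem_comap]
  exact (A.valuation_lt_one_iff (incl A b))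

lemma valuation_le_one (A : ValuationSubring Qb) (b : Zb) : A.valuation (b : Qb) ≤ 1 :=
  (A.valuation_le_one_iff _).mpr (mem_of_isIntegral A b b.2)

lemma valuation_eq_one (A : ValuationSubring Qb) (b : Zb) (hb : b ∉ center A) :
    A.valuation (b : Qb) = 1 :=
  le_antisymm (valuation_le_one A b) (not_lt.mp fun h => hb ((mem_center_iff A b).mpr h))

lemma natCast_mem_center (A : ValuationSubring Qb) (ℓ : ℕ) (hA : A.LiesOverPrime ℓ) :
    (ℓ : Zb) ∈ center A := by
  rw [mem_center_iff]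
  have := (ValuationSubring.mem_nonunits_iff A).mp hA
  simpa using this

lemma exists_fraction (A : ValuationSubring Qb) (ℓ : ℕ) (hℓ : ℓ.Prime) (hA : A.LiesOverPrime ℓ)
    (x : Qb) (hx : x ∈ A) : ∃ s b : Zb, s ∉ center A ∧ (s : Qb) * x = b := by
  have hcl : ∀ x : Qb, IsIntegral Zb x → ∃ r, algebraMap Zb Qb r = x := fun y hy =>
    ⟨⟨y, isIntegral_trans y hy⟩, rfl⟩
  have halg : IsAlgebraic ℤ x :=
    (IsFractionRing.isAlgebraic_iff ℤ ℚ Qb).mpr (Algebra.IsAlgebraic.isAlgebraic x)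
  obtain ⟨p, hp0, hp⟩ := halg
  have hp' : aeval x p.primPart = 0 := aeval_primPart_eq_zero hp0 hp
  obtain ⟨n, hn⟩ : ∃ n, ¬ (ℓ : ℤ) ∣ p.primPart.coeff n := by
    by_contra hcon
    push Not at hcon
    have h1 := p.isPrimitive_primPart _ ((C_dvd_iff_dvd_coeff _ _).mpr hcon)
    exact (Nat.prime_iff_prime_int.mp hℓ).not_isUnit h1
  have hn' : (p.primPart.map (algebraMap ℤ Zb)).coeff n ∉ center A := by
    rw [coeff_map]
    intro hmem
    obtain ⟨u, v, huv⟩ := ((Nat.prime_iff_prime_int.mp hℓ).irreducible.coprime_iff_not_dvd).mpr hn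
    have h1 : (1 : Zb) ∈ center A := by
      have : (1 : Zb) = algebraMap ℤ Zb u * (ℓ : Zb) + algebraMap ℤ Zb v * algebraMap ℤ Zb (p.primPart.coeff n) := by
        rw [← map_one (algebraMap ℤ Zb), ← huv]
        simp
      rw [this]
      exact Ideal.add_mem _ (Ideal.mul_mem_left _ _ (natCast_mem_center A ℓ hA))
        (Ideal.mul_mem_left _ _ hmem)
    exact (Ideal.IsPrime.ne_top inferInstance) ((Ideal.eq_top_iff_one _).mpr h1)
  obtain ⟨s, hs, b, hb | hb⟩ := seidenberg hcl (center A) x (p.primPart.map (algebraMap ℤ Zb))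
    (by rw [aeval_map_algebraMap]; exact hp') n hn'
  · exact ⟨s, b, hs, hb⟩
  · refine ⟨b, s, ?_, hb.symm⟩
    intro hbQ
    have h1 : A.valuation (s : Qb) = 1 := valuation_eq_one A s hs
    have h2 : A.valuation (b : Qb) < 1 := (mem_center_iff A b).mp hbQ
    have h3 : A.valuation x ≤ 1 := (A.valuation_le_one_iff x).mpr hx
    have h4 : A.valuation (s : Qb) = A.valuation (b : Qb) * A.valuation x := by
      rw [← map_mul]; exact congrArg _ hb
    rw [h1] at h4
    have : A.valuation (b : Qb) * A.valuation x < 1 := by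
      calc A.valuation (b : Qb) * A.valuation x ≤ A.valuation (b : Qb) * 1 := by gcongr
        _ < 1 := by simpa using h2
    exact absurd h4 (ne_of_gt this)

lemma map_mem_of_smul_center (A : ValuationSubring Qb) (ℓ : ℕ) (hℓ : ℓ.Prime)
    (hA : A.LiesOverPrime ℓ) (τ : GQ) (hτ : τ • center A = center A) (x : Qb) (hx : x ∈ A) :
    τ x ∈ A := by
  obtain ⟨s, b, hs, hsb⟩ := exists_fraction A ℓ hℓ hA x hx
  have hs' : τ • s ∉ center A := by
    intro h
    rw [← hτ, Ideal.smul_mem_pointwise_smul_iff] at h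
    exact hs h
  have h1 : A.valuation ((τ • s : Zb) : Qb) = 1 := valuation_eq_one A _ hs'
  have h2 : A.valuation ((τ • b : Zb) : Qb) ≤ 1 := valuation_le_one A _
  have h3 : ((τ • s : Zb) : Qb) * τ x = ((τ • b : Zb) : Qb) := by
    show τ (s : Qb) * τ x = τ (b : Qb)
    rw [← map_mul, hsb]
  rw [← A.valuation_le_one_iff]
  rw [← h3, map_mul, h1, one_mul] at h2
  exact h2

lemma mem_decompositionSubgroup (A : ValuationSubring Qb) (ℓ : ℕ) (hℓ : ℓ.Prime)
    (hA : A.LiesOverPrime ℓ) (σ : GQ) (hσ : σ • center A = center A) :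
    σ ∈ A.decompositionSubgroup ℚ := by
  rw [MulAction.mem_stabilizer_iff]
  have hσ' : σ⁻¹ • center A = center A := by
    rw [inv_smul_eq_iff, hσ]
  ext x
  rw [ValuationSubring.mem_pointwise_smul_iff_inv_smul_mem]
  constructor
  · intro h
    have := map_mem_of_smul_center A ℓ hℓ hA σ hσ _ h
    simpa using this
  · intro h
    exact map_mem_of_smul_center A ℓ hℓ hA σ⁻¹ hσ' _ h

theorem exists_isFrobeniusAt (A : ValuationSubring Qb) (ℓ : ℕ) (hℓ : ℓ.Prime)
    (hA : A.LiesOverPrime ℓ) : ∃ σ : GQ, A.IsFrobeniusAt σ ℓ := by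
  obtain ⟨σ, hσ, hfrob⟩ := exists_frob_ideal ℓ hℓ (center A) (natCast_mem_center A ℓ hA)
  have hdec := mem_decompositionSubgroup A ℓ hℓ hA σ hσ
  refine ⟨σ, hdec, fun xbar => ?_⟩
  obtain ⟨x, rfl⟩ := IsLocalRing.residue_surjective xbar
  obtain ⟨s, b, hs, hsb⟩ := exists_fraction A ℓ hℓ hA x x.2
  set g : A.decompositionSubgroup ℚ := ⟨σ, hdec⟩ with hg
  have key : ∀ c : Zb, g • IsLocalRing.residue A (incl A c) = (IsLocalRing.residue A (incl A c)) ^ ℓ := by
    intro c
    rw [← IsLocalRing.ResidueField.residue_smul, ← map_pow, ← sub_eq_zero, ← map_sub,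
      IsLocalRing.residue_eq_zero_iff]
    have h := hfrob c
    rw [center, Ideal.mem_comap] at h
    exact h
  have hsx : incl A s * x = incl A b := Subtype.ext hsb
  have hs0 : IsLocalRing.residue A (incl A s) ≠ 0 := by
    rw [Ne, IsLocalRing.residue_eq_zero_iff]
    exact hs
  have h1 : g • (IsLocalRing.residue A (incl A s) * IsLocalRing.residue A x) =
      (IsLocalRing.residue A (incl A s) * IsLocalRing.residue A x) ^ ℓ := by
    rw [← map_mul, hsx, key]
  rw [smul_mul', key, mul_pow] at h1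
  exact mul_left_cancel₀ (pow_ne_zero _ hs0) h1

theorem exists_liesOverPrime (ℓ : ℕ) (hℓ : ℓ.Prime) :
    ∃ A : ValuationSubring Qb, A.LiesOverPrime ℓ := by
  let A₀ : Subring Qb := (Int.castRingHom Qb).range
  let l₀ : A₀ := ⟨(ℓ : Qb), ⟨(ℓ : ℤ), by simp⟩⟩
  have hI : Ideal.span {l₀} ≠ ⊤ := by
    rw [Ne, Ideal.span_singleton_eq_top]
    intro hu
    obtain ⟨⟨_, ⟨n, rfl⟩⟩, hn⟩ := hu.exists_right_inv
    have h1 : ((ℓ : Qb)) * ((n : ℤ) : Qb) = 1 := congrArg Subtype.val hn
    have h2 : (ℓ : ℤ) * n = 1 := by exact_mod_cast h1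
    have h3 : IsUnit (ℓ : ℤ) := IsUnit.of_mul_eq_one _ h2
    exact (Nat.prime_iff_prime_int.mp hℓ).not_isUnit h3
  obtain ⟨A, -, hA⟩ := Ideal.image_subset_nonunits_valuationSubring _ hI
  exact ⟨A, hA ⟨l₀, Ideal.mem_span_singleton_self _, rfl⟩⟩

theorem exists_frobenius (ℓ : ℕ) (hℓ : ℓ.Prime) :
    ∃ (A : ValuationSubring Qb) (σ : GQ), A.LiesOverPrime ℓ ∧ A.IsFrobeniusAt σ ℓ := by
  obtain ⟨A, hA⟩ := exists_liesOverPrime ℓ hℓ
  obtain ⟨σ, hσ⟩ := exists_isFrobeniusAt A ℓ hℓ hA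
  exact ⟨A, σ, hA, hσ⟩

end Fermat.Agent.Lib.Frobenius
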