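import Mathlib
import Fermat.Prelude.Def_CuspForm_HeckeAlgebra
import Fermat.Prelude.Def_CuspForm_IntegralStructure
import Fermat.Prelude.Thm_CongruenceSubgroup_one_mem_strictPeriods_Gamma0
import Fermat.Prelude.Thm_ModularFormClass_qCoeff_heckeT
import Fermat.Prelude.Thm_ModularFormClass_qCoeff_heckeU

set_option autoImplicit false

namespace Fermat.Agent.Lib.QCoeff

open UpperHalfPlane ModularFormClass

variable {N : ℕ} {k : ℤ}

theorem qCoeff_add (f g : CuspForm (CongruenceSubgroup.Gamma0 N) k) (n : ℕ) :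
    qCoeff (⇑(f + g)) n = qCoeff f n + qCoeff g n := by
  unfold qCoeff
  rw [FunLike.coe_add, ModularForm.qExpansion_add one_pos
    (CongruenceSubgroup.one_mem_strictPeriods_Gamma0 N) f g, map_add]

theorem qCoeff_smul (c : ℂ) (f : CuspForm (CongruenceSubgroup.Gamma0 N) k) (n : ℕ) :
    qCoeff (⇑(c • f)) n = c * qCoeff f n := by
  unfold qCoeff
  rw [FunLike.coe_smul, ModularForm.qExpansion_smul one_pos
    (CongruenceSubgroup.one_mem_strictPeriods_Gamma0 N) c f]
  simp

/-- the `n`-th coefficient as a linear functional. -/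
noncomputable def coeffLin (N : ℕ) (k : ℤ) (n : ℕ) :
    CuspForm (CongruenceSubgroup.Gamma0 N) k →ₗ[ℂ] ℂ where
  toFun f := qCoeff f n
  map_add' f g := qCoeff_add f g n
  map_smul' c f := by simpa using qCoeff_smul c f n

@[simp] theorem coeffLin_apply (n : ℕ) (f : CuspForm (CongruenceSubgroup.Gamma0 N) k) :
    coeffLin N k n f = qCoeff f n := rfl

theorem qCoeff_zero_idx (f : CuspForm (CongruenceSubgroup.Gamma0 N) k) : qCoeff f 0 = 0 :=
  CuspFormClass.qExpansion_coeff_zero f one_pos (CongruenceSubgroup.one_mem_strictPeriods_Gamma0 N)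

theorem eq_zero_of_qCoeff (f : CuspForm (CongruenceSubgroup.Gamma0 N) k)
    (h : ∀ n, qCoeff f n = 0) : f = 0 := by
  have hΓ := CongruenceSubgroup.one_mem_strictPeriods_Gamma0 N
  haveI : Fact (IsCusp OnePoint.infty
      (Subgroup.map (Matrix.SpecialLinearGroup.mapGL ℝ) (CongruenceSubgroup.Gamma0 N))) :=
    ⟨Subgroup.isCusp_of_mem_strictPeriods one_pos hΓ⟩
  ext τ
  have := ModularForm.hasSum_qExpansion (f := f) one_pos hΓ τ
  have h0 : (fun m ↦ (qExpansion 1 f).coeff m * Function.Periodic.qParam 1 τ ^ m) = fun _ => 0 := by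
    funext m
    have := h m
    unfold qCoeff at this
    rw [this, zero_mul]
  rw [h0] at this
  simpa using this.unique hasSum_zero

theorem ext_qCoeff {f g : CuspForm (CongruenceSubgroup.Gamma0 N) k}
    (h : ∀ n, qCoeff f n = qCoeff g n) : f = g := by
  rw [← sub_eq_zero]
  apply eq_zero_of_qCoeff
  intro n
  have := (coeffLin N k n).map_sub f g
  simp only [coeffLin_apply] at this
  rw [this, h n, sub_self]

theorem qCoeff_heckeTLin {p : ℕ} (hp : p.Prime) (hpN : ¬ p ∣ N)
    (f : CuspForm (CongruenceSubgroup.Gamma0 N) k) (n : ℕ) :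
    qCoeff (CuspForm.heckeTLin k hp hpN f) n
      = qCoeff f (n * p) + if p ∣ n then (p : ℂ) ^ (k - 1) * qCoeff f (n / p) else 0 := by
  rw [CuspForm.coe_heckeTLin_apply, ModularFormClass.qCoeff_heckeT f
    (CongruenceSubgroup.one_mem_strictPeriods_Gamma0 N) hp.ne_zero]
  rfl

theorem qCoeff_heckeULin [NeZero N] {p : ℕ} (hpN : p ∣ N)
    (f : CuspForm (CongruenceSubgroup.Gamma0 N) k) (n : ℕ) :
    qCoeff (CuspForm.heckeULin k hpN f) n = qCoeff f (n * p) := by
  have hp0 : p ≠ 0 := by
    rintro rfl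
    exact NeZero.ne N (Nat.eq_zero_of_zero_dvd hpN)
  rw [CuspForm.coe_heckeULin_apply, ModularFormClass.qCoeff_heckeU f
    (CongruenceSubgroup.one_mem_strictPeriods_Gamma0 N) hp0]
  rfl

theorem mem_intLattice_iff (f : CuspForm (CongruenceSubgroup.Gamma0 N) k) :
    f ∈ CuspForm.intLattice N k ↔ ∀ n : ℕ, ∃ m : ℤ, qCoeff f n = (m : ℂ) := by
  constructor
  · intro hf
    unfold CuspForm.intLattice at hf
    induction hf using Submodule.span_induction with
    | mem x hx => exact hx
    | zero =>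
      intro n
      exact ⟨0, by simpa using (coeffLin N k n).map_zero⟩
    | add x y _ _ hx hy =>
      intro n
      obtain ⟨a, ha⟩ := hx n
      obtain ⟨b, hb⟩ := hy n
      exact ⟨a + b, by rw [qCoeff_add, ha, hb]; push_cast; ring⟩
    | smul c x _ hx =>
      intro n
      obtain ⟨a, ha⟩ := hx n
      refine ⟨c * a, ?_⟩
      have : (c • x) = ((c : ℂ) • x) := by
        rw [Int.cast_smul_eq_zsmul]
      rw [this, qCoeff_smul, ha]
      push_cast; ring
  · intro h
    exact Submodule.subset_span h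

end Fermat.Agent.Lib.QCoeff
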